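import Fermat.Agent.MF.EtaEight.Series
import Fermat.Agent.Carayol.Elements
import Fermat.Agent.RED.Specialization.SwapField

/-!
# The quotient in the function field, and its image under the exchange of the degeneracy maps

For `q ∣ M` a prime `≡ 2 mod 3` and `r ∤ M` the quotient lies in the function field of level `M r`
and every embedding exchanging `j (e τ)` and `j (e r τ)` sends it to `r ^ 8` times its inverse.
-/

set_option autoImplicit false

noncomputable section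

open UpperHalfPlane Function HahnSeries ModularCurve CongruenceSubgroup
open Fermat.Agent.Igusa Fermat.Agent.RED.Spec Fermat.Agent.HK.Corr
open scoped MatrixGroups

namespace Fermat.Agent.EtaEight

variable {M r : ℕ} [NeZero M] [NeZero r]

omit [NeZero M] [NeZero r] in
/-- The partial Atkin–Lehner matrix moves `j (e r^i τ)` to `j (e r^(1-i) τ)`. -/
theorem exists_isTri_swapOne {x y : ℤ} (hdet : x * (r : ℤ) - (-y) * (M : ℤ) = 1) {e i : ℕ}
    (he : e ∣ M) (hi : i ≤ 1) :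
    ∃ g : SL(2, ℤ), IsTri (slMk x (-y) (M : ℤ) (r : ℤ) hdet) (e * r ^ i) g e (r ^ i) 0 := by
  obtain ⟨c, hc⟩ := he
  have hcZ : (M : ℤ) = e * c := by exact_mod_cast hc
  have hp : (r : ℤ) ^ i * (r : ℤ) ^ (1 - i) = r := by
    rw [← _root_.pow_add, Nat.add_sub_cancel' hi, pow_one]
  refine ⟨slMk (x * (r : ℤ) ^ i) (-y * e) c ((r : ℤ) ^ (1 - i)) ?_, ⟨rfl, ?_, ?_, ?_, ?_⟩⟩
  · linear_combination hdet + x * hp - y * hcZ
  all_goals simp [slMk]
  · ring
  · rw [hcZ]; ring
  · ring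
  · linear_combination hp

omit [NeZero M] in
theorem affH_scaleH_one {e i : ℕ} [NeZero e] (hi : i ≤ 1) (τ : ℍ) :
    affH e (r ^ i) 0 (MF.scaleH r τ) = MF.scaleH (e * r ^ (1 - i)) τ := by
  ext
  have : NeZero (e * r ^ (1 - i)) :=
    ⟨mul_ne_zero (NeZero.ne e) (pow_ne_zero _ (NeZero.ne r))⟩
  rw [coe_affH 0 _ (Nat.pos_of_ne_zero (NeZero.ne e))
    (pow_pos (Nat.pos_of_ne_zero (NeZero.ne r)) i), MF.coe_scaleH, MF.coe_scaleH]
  have hr' : (r : ℂ) ^ i ≠ 0 := pow_ne_zero _ (Nat.cast_ne_zero.mpr (NeZero.ne r))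
  have hp : (r : ℂ) ^ i * (r : ℂ) ^ (1 - i) = r := by
    rw [← _root_.pow_add, Nat.add_sub_cancel' hi, pow_one]
  push_cast
  field_simp
  linear_combination (-(e : ℂ) * (τ : ℂ)) * hp

omit [NeZero M] in
theorem etaPair_swap {q : ℕ} [NeZero q] (hq3 : q % 3 = 2) (hqM : q ∣ M) {x y : ℤ}
    (hdet : x * (r : ℤ) - (-y) * (M : ℤ) = 1) {i : ℕ} (hi : i ≤ 1) (τ : ℍ) :
    etaPair q (MF.scaleH (r ^ i) (slMk x (-y) (M : ℤ) (r : ℤ) hdet • MF.scaleH r τ)) =
      (jac (slMk x (-y) (M : ℤ) (r : ℤ) hdet) (MF.scaleH r τ) / ((r ^ i : ℕ) : ℂ)) ^ 8 *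
        etaPair q (MF.scaleH (r ^ (1 - i)) τ) := by
  obtain ⟨g, hg⟩ := exists_isTri_swapOne hdet (one_dvd M) hi
  obtain ⟨g', hg'⟩ := exists_isTri_swapOne hdet hqM hi
  rw [one_mul] at hg
  have hri : ((r ^ i : ℕ) : ℤ) ≠ 0 := by exact_mod_cast pow_ne_zero i (NeZero.ne r)
  have hq0 : (q : ℤ) ≠ 0 := by exact_mod_cast NeZero.ne q
  have hq3' := natCast_eq_neg_one hq3
  have e00 : g' 0 0 = g 0 0 := mul_right_cancel₀ hq0 (by
    have a := hg.e00; have b := hg'.e00; push_cast at a b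
    linear_combination b - (q : ℤ) * a)
  have e01 : g' 0 1 = q * g 0 1 := mul_right_cancel₀ hri (by
    have a := hg.e01; have b := hg'.e01; push_cast at a b ⊢
    linear_combination b - (q : ℤ) * a)
  have e10 : g' 1 0 * q = g 1 0 := by
    have a := hg.e10; have b := hg'.e10; push_cast at a b
    linear_combination b - a
  have e11 : g' 1 1 = g 1 1 := mul_right_cancel₀ hri (by
    have a := hg.e11; have b := hg'.e11; push_cast at a b ⊢
    linear_combination b - a)
  have ht : IsTwist g g' := by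
    refine ⟨by rw [e00], by rw [e01]; push_cast; rw [hq3', neg_one_mul], ?_, by rw [e11]⟩
    rw [← e10]; push_cast; rw [hq3']; ring
  have hone := eta8_scaleH_smul hg (MF.scaleH r τ)
  have htwo := eta8_scaleH_smul hg' (MF.scaleH r τ)
  rw [affH_scaleH_one hi] at hone htwo
  rw [etaPair, scaleH_scaleH, hone, htwo, etaPair, scaleH_scaleH]
  simp only [one_mul]
  linear_combination ((jac (slMk x (-y) (M : ℤ) (r : ℤ) hdet) (MF.scaleH r τ) /
    ((r ^ i : ℕ) : ℂ)) ^ 8 * eta8 (MF.scaleH (r ^ (1 - i)) τ) *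
      eta8 (MF.scaleH (q * r ^ (1 - i)) τ)) * eExp_twist ht

omit [NeZero M] in
theorem etaQuot_swap {q : ℕ} [NeZero q] (hq3 : q % 3 = 2) (hqM : q ∣ M) {x y : ℤ}
    (hdet : x * (r : ℤ) - (-y) * (M : ℤ) = 1) (τ : ℍ) :
    etaQuot q r (slMk x (-y) (M : ℤ) (r : ℤ) hdet • MF.scaleH r τ) =
      (r : ℂ) ^ 8 * (etaQuot q r τ)⁻¹ := by
  have h0 := etaPair_swap hq3 hqM hdet zero_le_one τ
  have h1 := etaPair_swap hq3 hqM hdet (le_refl 1) τ
  simp only [pow_zero, Nat.sub_zero, pow_one, Nat.sub_self, MF.scaleH_one, Nat.cast_one,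
    div_one] at h0 h1
  rw [etaQuot, h0, h1, etaQuot]
  have a1 := jac_ne_zero (slMk x (-y) (M : ℤ) (r : ℤ) hdet) (MF.scaleH r τ)
  have a2 : (r : ℂ) ≠ 0 := Nat.cast_ne_zero.mpr (NeZero.ne r)
  have a3 := etaPair_ne_zero q τ
  have a4 := etaPair_ne_zero q (MF.scaleH r τ)
  field_simp

variable {K : Type} [Field K] [Algebra ℚ K] (ι : K →+* ℂ) {q : ℕ} [NeZero q]

section Mem

variable {N : ℕ} [NeZero N] (hq : q.Prime) (hq3 : q % 3 = 2) (hqr : Nat.Coprime q r)
  (hN : q * r ∣ N)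

include hq3 in
omit [Algebra ℚ K] in
theorem hasExp_etaQuot_coeffMap :
    HasExp 1 (etaQuot q r) (coeffMap ι (etaQuotSer K q r)) := by
  rw [coeffMap_etaQuotSer]
  exact hasExp_etaQuot hq3

include ι hq hq3 hqr hN

theorem etaQuotSer_mem : etaQuotSer K q r ∈ modField K N :=
  Carayol.mem_modField_of_conjugable ι (conjugable_etaQuot hq hq3 hqr hN)
    (hasExp_etaQuot_coeffMap ι hq3)

theorem etaQuotInvSer_mem : etaQuotInvSer K q r ∈ modField K N := by
  rw [eq_inv_of_mul_eq_one_right (etaQuotSer_mul_inv K q r)]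
  exact inv_mem (etaQuotSer_mem ι hq hq3 hqr hN)

theorem isIntegralElem_etaQuotSer :
    (Polynomial.eval₂RingHom (Int.castRingHom (LaurentSeries K)) (jqModC K)).IsIntegralElem
      (etaQuotSer K q r) :=
  Carayol.isIntegralElem_of_conjugable (conjugable_etaQuot hq hq3 hqr hN) ι
    (hasExp_etaQuot_coeffMap ι hq3)

end Mem

omit [NeZero M] in
/-- The expansion of the inverse. -/
theorem hasExp_etaQuot_inv (hq3 : q % 3 = 2) :
    HasExp 1 (fun τ => (etaQuot q r τ)⁻¹) (etaQuotInvSer ℂ q r) := by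
  have hg := (hasExp_zpow 1 (-leadExp q r)).mul
    ((hasExp_p8Inv.mul (hasExp_scale hasExp_p8Inv q)).mul
      ((hasExp_scale hasExp_p8 r).mul (hasExp_scale hasExp_p8 (q * r))))
  have h := ((hasExp_etaQuot (r := r) hq3).mul hg).add hasExp_one.neg
  change HasExp 1 _ (etaQuotSer ℂ q r * etaQuotInvSer ℂ q r + -1) at h
  rw [etaQuotSer_mul_inv, add_neg_cancel] at h
  have h0 := Carayol.hasExp_zero_eq h
  refine (congrArg (HasExp 1 · _) (funext fun τ => ?_)).mpr hg
  have h1 := congrFun h0 τ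
  simp only [Pi.add_apply, Pi.neg_apply, Pi.mul_apply, Pi.one_apply, Pi.zero_apply,
    ← sub_eq_add_neg, sub_eq_zero] at h1
  exact (eq_inv_of_mul_eq_one_right h1).symm

omit [NeZero M] [Algebra ℚ K] in
include ι in
/-- The cube. -/
theorem etaQuotSer_cube (hq3 : q % 3 = 2) :
    etaQuotSer K q r ^ 3 = Carayol.pairV K 1 r * Carayol.pairV K q (q * r) := by
  apply coeffMap_injective ι.injective
  rw [map_pow, map_mul, coeffMap_etaQuotSer, Carayol.coeffMap_pairV, Carayol.coeffMap_pairV]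
  refine (Carayol.hasExp_pow (hasExp_etaQuot hq3) 3).unique Nat.one_pos ?_
  refine (congrArg (HasExp 1 · _) (funext fun τ => ?_)).mpr
    ((Carayol.hasExp_vPair 1 r).mul (Carayol.hasExp_vPair q (q * r)))
  simp only [Pi.pow_apply, Pi.mul_apply, Carayol.vPair, MF.scaleH_one, etaQuot_cube]
  rw [div_eq_mul_inv, mul_inv]
  ring

omit [NeZero M] in
include ι in
/-- `r^24` times the inverse is integral over `ℤ[j]`. -/
theorem isIntegralElem_etaQuotInvSer {N : ℕ} [NeZero N] (hq : q.Prime) (hq3 : q % 3 = 2)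
    (hqr : Nat.Coprime q r) (hN : q * r ∣ N) :
    (Polynomial.eval₂RingHom (Int.castRingHom (LaurentSeries K)) (jqModC K)).IsIntegralElem
      (single (0 : ℤ) (((r : K) ^ 12) * ((r : K) ^ 12)) * etaQuotInvSer K q r) := by
  have hU : single (0 : ℤ) (((r : K) ^ 12) * ((r : K) ^ 12)) * etaQuotInvSer K q r =
      etaQuotSer K q r * etaQuotSer K q r *
        (Carayol.pairU K 1 r * Carayol.pairU K q (q * r)) := by
    have h1 : single (0 : ℤ) (((r : K) ^ 12) * ((r : K) ^ 12)) =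
        (Carayol.pairU K 1 r * Carayol.pairU K q (q * r)) * etaQuotSer K q r ^ 3 := by
      rw [etaQuotSer_cube ι hq3, mul_mul_mul_comm, Carayol.pairU_mul_pairV,
        Carayol.pairU_mul_pairV, Nat.div_one,
        Nat.mul_div_cancel_left _ (Nat.pos_of_ne_zero (NeZero.ne q)), single_mul_single, add_zero]
    rw [h1]
    linear_combination (Carayol.pairU K 1 r * Carayol.pairU K q (q * r) *
      etaQuotSer K q r ^ 2) * etaQuotSer_mul_inv K q r
  rw [hU]
  have hz := isIntegralElem_etaQuotSer ι hq hq3 hqr hN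
  exact RingHom.IsIntegralElem.mul _ (RingHom.IsIntegralElem.mul _ hz hz)
    (RingHom.IsIntegralElem.mul _
      (Carayol.isIntegralElem_pairU ι (one_dvd r) ((dvd_mul_left r q).trans hN))
      (Carayol.isIntegralElem_pairU ι (dvd_mul_right q r) hN))

variable (hr : r.Prime) (hrM : ¬ r ∣ M)

omit [NeZero q] in
/-- The substitution realising the exchange. -/
theorem hasExp_genFun_swap (φ : modField K (M * r) →ₐ[K] LaurentSeries K)
    (hφ : ∀ d, φ ⟨genSer K d, Carayol.genSer_mem d⟩ = genSer K (swapIdx hr d))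
    (hrM : ¬ r ∣ M) {x y : ℤ} (hdet : x * (r : ℤ) - (-y) * (M : ℤ) = 1) (d : DivIdx (M * r)) :
    HasExp 1 (genFun d ∘ fun τ => slMk x (-y) (M : ℤ) (r : ℤ) hdet • MF.scaleH r τ)
      (coeffMap ι (φ ⟨genSer K d, Carayol.genSer_mem d⟩)) := by
  rw [hφ, coeffMap_genSer, show (genFun d ∘ fun τ => slMk x (-y) (M : ℤ) (r : ℤ) hdet •
    MF.scaleH r τ) = genFun (swapIdx hr d) from funext fun τ => ?_]
  · exact Carayol.hasExp_genFun _
  · have : NeZero d.1 := ⟨d.2.1.ne'⟩
    show MF.kleinJ (MF.scaleH d.1 (_ • MF.scaleH r τ)) = MF.kleinJ (MF.scaleH _ τ)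
    by_cases h : d.1 ∣ M
    · obtain ⟨g, hg⟩ := exists_isTri_swapOne hdet h zero_le_one
      rw [pow_zero, mul_one] at hg
      rw [hg.jFun_eq, coe_swapIdx_of_dvd hr h]
      have := affH_scaleH_one (r := r) (e := d.1) zero_le_one τ
      simp only [pow_zero, Nat.sub_zero, pow_one, mul_comm d.1 r] at this
      rw [← this]
    · obtain ⟨e, he, heM, he0⟩ := exists_eq_mul_of_not_dvd hr h
      have : NeZero e := ⟨he0.ne'⟩
      obtain ⟨g, hg⟩ := exists_isTri_swapOne hdet heM le_rfl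
      rw [pow_one, mul_comm] at hg
      rw [he, hg.jFun_eq, coe_swapIdx_of_mul hr hrM he]
      have := affH_scaleH_one (r := r) (e := e) le_rfl τ
      rw [pow_one, Nat.sub_self, pow_zero, mul_one] at this
      rw [← this]

include ι hrM in
/-- **The image of the quotient under the exchange.** -/
theorem swap_etaQuotSer (hq3 : q % 3 = 2) (hqM : q ∣ M)
    (φ : modField K (M * r) →ₐ[K] LaurentSeries K)
    (hφ : ∀ d, φ ⟨genSer K d, Carayol.genSer_mem d⟩ = genSer K (swapIdx hr d))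
    (hz : etaQuotSer K q r ∈ modField K (M * r)) :
    φ ⟨_, hz⟩ = single (0 : ℤ) ((r : K) ^ 8) * etaQuotInvSer K q r := by
  obtain ⟨x, y, hxy⟩ : IsCoprime (r : ℤ) (M : ℤ) :=
    Int.isCoprime_iff_gcd_eq_one.mpr (by exact_mod_cast (hr.coprime_iff_not_dvd.mpr hrM))
  have hdet : x * (r : ℤ) - (-y) * (M : ℤ) = 1 := by linear_combination hxy
  refine Carayol.substEmbedding_eq ι Nat.one_pos _ φ (hasExp_genFun_swap ι hr φ hφ hrM hdet) hz
    (hasExp_etaQuot_coeffMap ι hq3) ?_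
  rw [map_mul, coeffMap_single, map_pow, map_natCast, coeffMap_etaQuotInvSer]
  have hinv := hasExp_etaQuot_inv (r := r) hq3
  refine (congrArg (HasExp 1 · _) (funext fun τ => ?_)).mpr ((hasExp_const _).mul hinv)
  exact etaQuot_swap hq3 hqM hdet τ

end Fermat.Agent.EtaEight
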