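import Fermat.Agent.Igusa.Conjugates
import Fermat.Agent.MF.JExpansion

/-!
# The eighth power of the Dedekind eta function

`η⁸` transforms with weight `4` and the cubic character `(a b; c d) ↦ ω ^ ((a + d) c - b d (c² - 1))`
of `SL(2, ℤ)`.  For a prime `q ≡ 2 mod 3` the product `η⁸(τ) η⁸(q τ)` is invariant of weight `8`
under `Γ₀(q)`, and `η⁸(τ) η⁸(q τ) / (η⁸(r τ) η⁸(q r τ))` is invariant under `Γ₀(q r)`.
-/

set_option autoImplicit false

noncomputable section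

open UpperHalfPlane Function CongruenceSubgroup
open Fermat.Agent.Igusa
open scoped MatrixGroups Real Manifold

namespace Fermat.Agent.EtaEight

local notation "𝕢" => Periodic.qParam

/-- `η(τ)⁸`. -/
def eta8 (τ : ℍ) : ℂ := ModularForm.eta (τ : ℂ) ^ 8

theorem eta8_ne_zero (τ : ℍ) : eta8 τ ≠ 0 := pow_ne_zero _ (ModularForm.eta_ne_zero τ.2)

theorem eta8_cube (τ : ℍ) : eta8 τ ^ 3 = ModularForm.discriminant τ := by
  rw [eta8, ← pow_mul]
  rfl

theorem eta8_eq (τ : ℍ) : eta8 τ = 𝕢 3 (τ : ℂ) * MF.etaProdUHP τ ^ 8 := by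
  rw [eta8, ModularForm.eta, mul_pow]
  congr 1
  rw [Periodic.qParam, Periodic.qParam, ← Complex.exp_nat_mul]
  congr 1
  push_cast
  ring

theorem mdifferentiable_eta8 : MDiff eta8 := by
  refine UpperHalfPlane.mdifferentiable_iff.mpr fun z hz => ?_
  have h1 : DifferentiableWithinAt ℂ (fun w => ModularForm.eta w ^ 8) {w : ℂ | 0 < w.im} z :=
    ((ModularForm.differentiableAt_eta_of_mem_upperHalfPlaneSet hz).pow 8).differentiableWithinAt
  refine h1.congr_of_eventuallyEq ?_ ?_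
  · filter_upwards [self_mem_nhdsWithin] with w hw
    simp [Function.comp_apply, eta8, ofComplex_apply_of_im_pos hw]
  · simp [Function.comp_apply, eta8, ofComplex_apply_of_im_pos hz]

/-- The primitive cube root of unity. -/
def omega3 : ℂ := Complex.exp (2 * π * Complex.I / 3)

theorem omega3_pow_three : omega3 ^ 3 = 1 := by
  rw [omega3, ← Complex.exp_nat_mul, ← Complex.exp_two_pi_mul_I]
  congr 1
  push_cast
  ring

theorem omega3_ne_zero : omega3 ≠ 0 := Complex.exp_ne_zero _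

theorem omega3_zpow_eq_one {m : ℤ} (h : (m : ZMod 3) = 0) : omega3 ^ m = 1 := by
  obtain ⟨k, rfl⟩ := (ZMod.intCast_zmod_eq_zero_iff_dvd m 3).mp h
  rw [zpow_mul]
  push_cast
  rw [zpow_ofNat, omega3_pow_three, one_zpow]

theorem omega3_zpow_congr {m n : ℤ} (h : (m : ZMod 3) = n) : omega3 ^ m = omega3 ^ n := by
  rw [← sub_add_cancel m n, zpow_add₀ omega3_ne_zero,
    omega3_zpow_eq_one (by push_cast; rw [h, sub_self]), one_mul]

/-- The exponent of the character. -/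
def eExp (g : SL(2, ℤ)) : ℤ :=
  (g 0 0 + g 1 1) * g 1 0 - g 0 1 * g 1 1 * (g 1 0 ^ 2 - 1)

/-- The automorphy factor. -/
def jac (g : SL(2, ℤ)) (τ : ℍ) : ℂ := ((g 1 0 : ℤ) : ℂ) * (τ : ℂ) + (g 1 1 : ℤ)

theorem jac_ne_zero (g : SL(2, ℤ)) (τ : ℍ) : jac g τ ≠ 0 := by
  simpa [jac, denom] using denom_ne_zero g τ

theorem coe_smul_eq (g : SL(2, ℤ)) (τ : ℍ) :
    ((g • τ : ℍ) : ℂ) = (((g 0 0 : ℤ) : ℂ) * τ + (g 0 1 : ℤ)) / jac g τ := by
  rw [coe_specialLinearGroup_apply]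
  simp [jac]

theorem jac_mul (g y : SL(2, ℤ)) (τ : ℍ) : jac g (y • τ) * jac y τ = jac (g * y) τ := by
  have h := jac_ne_zero y τ
  rw [jac, coe_smul_eq, add_mul, mul_assoc, div_mul_cancel₀ _ h]
  simp only [jac, Matrix.SpecialLinearGroup.coe_mul, Matrix.mul_apply, Fin.sum_univ_two]
  push_cast
  ring

theorem eta8_T (τ : ℍ) : eta8 (ModularGroup.T • τ) = omega3 * eta8 τ := by
  rw [eta8_eq, eta8_eq, MF.etaProdUHP, MF.etaProdUHP,
    show ((ModularGroup.T • τ : ℍ) : ℂ) = (τ : ℂ) + 1 by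
      rw [coe_smul_eq]; simp [jac, ModularGroup.T],
    show 𝕢 1 ((τ : ℂ) + 1) = 𝕢 1 (τ : ℂ) from by
      simp [Periodic.qParam, mul_add, Complex.exp_add, Complex.exp_two_pi_mul_I],
    ← mul_assoc]
  congr 1
  rw [omega3, Periodic.qParam, Periodic.qParam, ← Complex.exp_add]
  congr 1
  push_cast
  ring

theorem eta8_S (τ : ℍ) : eta8 (ModularGroup.S • τ) = (τ : ℂ) ^ 4 * eta8 τ := by
  have hz : (τ : ℂ) ≠ 0 := τ.ne_zero
  have he : ModularForm.eta (-(τ : ℂ)⁻¹) =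
      (Complex.sqrt Complex.I)⁻¹ * (Complex.sqrt τ * ModularForm.eta τ) := by
    simpa [neg_div] using ModularForm.eta_comp_eq_csqrt_I_inv τ.2
  have hs : ∀ {z : ℂ}, z ≠ 0 → Complex.sqrt z ^ 8 = z ^ 4 := fun {z} h0 => by
    rw [_root_.sqrt_eq_exp h0, ← Complex.exp_nat_mul]
    conv_rhs => rw [← Complex.exp_log h0, ← Complex.exp_nat_mul]
    congr 1
    push_cast
    ring
  rw [eta8, show ((ModularGroup.S • τ : ℍ) : ℂ) = -(τ : ℂ)⁻¹ by
    rw [coe_smul_eq]; simp [jac, ModularGroup.S, div_eq_mul_inv], he, eta8, mul_pow, mul_pow,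
    inv_pow, hs Complex.I_ne_zero, hs hz, Complex.I_pow_four, inv_one, one_mul]

/-- The transformation law for one element. -/
def Law (g : SL(2, ℤ)) : Prop :=
  ∀ τ : ℍ, eta8 (g • τ) = omega3 ^ eExp g * jac g τ ^ 4 * eta8 τ

theorem law_mul {g y : SL(2, ℤ)} {k : ℤ} (hg : Law g)
    (hy : ∀ τ : ℍ, eta8 (y • τ) = omega3 ^ k * jac y τ ^ 4 * eta8 τ)
    (he : (eExp (g * y) : ZMod 3) = eExp g + k) : Law (g * y) := fun τ => by
  rw [mul_smul, hg, hy, ← jac_mul,
    omega3_zpow_congr (m := eExp (g * y)) (n := eExp g + k) (by push_cast; exact he),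
    zpow_add₀ omega3_ne_zero, mul_pow]
  ring

theorem zmod_det (g : SL(2, ℤ)) :
    ((g 0 0 : ℤ) : ZMod 3) * (g 1 1 : ℤ) - (g 0 1 : ℤ) * (g 1 0 : ℤ) = 1 := by
  exact_mod_cast congrArg (fun n : ℤ => (n : ZMod 3)) (sl2_det g)

theorem eExp_step : ∀ a b c d : ZMod 3, a * d - b * c = 1 →
    ((a + (c + d)) * c - (a + b) * (c + d) * (c ^ 2 - 1) = (a + d) * c - b * d * (c ^ 2 - 1) + 1) ∧
    ((a + (-c + d)) * c - (-a + b) * (-c + d) * (c ^ 2 - 1) =
      (a + d) * c - b * d * (c ^ 2 - 1) + -1) ∧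
    ((b + -c) * d - -a * -c * (d ^ 2 - 1) = (a + d) * c - b * d * (c ^ 2 - 1) + 0) ∧
    ((-b + c) * -d - a * c * (d ^ 2 - 1) = (a + d) * c - b * d * (c ^ 2 - 1) + 0) := by
  decide

theorem law_all (g : SL(2, ℤ)) : Law g := by
  have hmem : g ∈ Subgroup.closure {ModularGroup.S, ModularGroup.T} := by
    rw [SpecialLinearGroup.SL2Z_generators]
    trivial
  induction hmem using Subgroup.closure_induction_right with
  | one => intro τ; simp [eExp, jac]
  | mul_right x y _ hy hx =>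
    rcases hy with rfl | rfl
    · refine law_mul (k := 0) hx (fun τ => ?_) ?_
      · rw [eta8_S, zpow_zero, one_mul]; simp [jac, ModularGroup.S]
      · have h := (eExp_step _ _ _ _ (zmod_det x)).2.2.1
        simp [eExp, Matrix.SpecialLinearGroup.coe_mul, Matrix.mul_apply, Fin.sum_univ_two, ModularGroup.coe_S]
        simpa using h
    · refine law_mul (k := 1) hx (fun τ => ?_) ?_
      · rw [eta8_T, zpow_one]; simp [jac, ModularGroup.T]
      · have h := (eExp_step _ _ _ _ (zmod_det x)).1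
        simp [eExp, Matrix.SpecialLinearGroup.coe_mul, Matrix.mul_apply, Fin.sum_univ_two, ModularGroup.coe_T]
        simpa using h
  | mul_inv_cancel x y _ hy hx =>
    rcases hy with rfl | rfl
    · refine law_mul (k := 0) hx (fun τ => ?_) ?_
      · have h := eta8_S (ModularGroup.S⁻¹ • τ)
        rw [smul_inv_smul] at h
        have hc : ((ModularGroup.S⁻¹ • τ : ℍ) : ℂ) * jac ModularGroup.S⁻¹ τ = 1 := by
          rw [coe_smul_eq, div_mul_cancel₀ _ (jac_ne_zero _ τ)]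
          simp
        rw [h, zpow_zero, one_mul, ← mul_assoc, ← mul_pow, mul_comm (jac _ τ), hc, one_pow, one_mul]
      · have h := (eExp_step _ _ _ _ (zmod_det x)).2.2.2
        simp [eExp, Matrix.SpecialLinearGroup.coe_mul, Matrix.mul_apply, Fin.sum_univ_two]
        simpa using h
    · refine law_mul (k := -1) hx (fun τ => ?_) ?_
      · have h := eta8_T (ModularGroup.T⁻¹ • τ)
        rw [smul_inv_smul] at h
        have hj : jac ModularGroup.T⁻¹ τ = 1 := by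
          simp [jac]
        rw [h, hj, one_pow, mul_one, zpow_neg_one, ← mul_assoc, inv_mul_cancel₀ omega3_ne_zero,
          one_mul]
      · have h := (eExp_step _ _ _ _ (zmod_det x)).2.1
        simp [eExp, Matrix.SpecialLinearGroup.coe_mul, Matrix.mul_apply, Fin.sum_univ_two]
        simpa using h

/-- **The transformation law of `η⁸`.** -/
theorem eta8_smul (g : SL(2, ℤ)) (τ : ℍ) :
    eta8 (g • τ) = omega3 ^ eExp g * jac g τ ^ 4 * eta8 τ := law_all g τ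

/-- `g'` is congruent to `(a -b; -c d)` modulo `3`. -/
def IsTwist (g g' : SL(2, ℤ)) : Prop :=
  (g' 0 0 : ZMod 3) = g 0 0 ∧ (g' 0 1 : ZMod 3) = -(g 0 1 : ℤ) ∧
    (g' 1 0 : ZMod 3) = -(g 1 0 : ℤ) ∧ (g' 1 1 : ZMod 3) = g 1 1

theorem eExp_twist {g g' : SL(2, ℤ)} (h : IsTwist g g') :
    omega3 ^ eExp g * omega3 ^ eExp g' = 1 := by
  obtain ⟨h1, h2, h3, h4⟩ := h
  rw [← zpow_add₀ omega3_ne_zero]
  refine omega3_zpow_eq_one ?_
  simp only [eExp]
  push_cast
  rw [h1, h2, h3, h4]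
  ring

/-- `η⁸(τ) η⁸(q τ)`. -/
def etaPair (q : ℕ) (τ : ℍ) : ℂ := eta8 τ * eta8 (MF.scaleH q τ)

theorem etaPair_ne_zero (q : ℕ) (τ : ℍ) : etaPair q τ ≠ 0 :=
  mul_ne_zero (eta8_ne_zero _) (eta8_ne_zero _)

theorem natCast_eq_neg_one {q : ℕ} (hq : q % 3 = 2) : (q : ZMod 3) = -1 := by
  rw [← ZMod.natCast_mod q 3, hq]
  decide

theorem etaPair_smul {q : ℕ} [NeZero q] (hq : q % 3 = 2) {g : SL(2, ℤ)} (hg : g ∈ Gamma0 q)
    (τ : ℍ) : etaPair q (g • τ) = jac g τ ^ 8 * etaPair q τ := by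
  obtain ⟨g', h⟩ := isTri_Gamma0 (d := q) dvd_rfl hg
  obtain ⟨h1, h2⟩ := h.scaleH_smul τ
  rw [affH_diag] at h1 h2
  have hden : jac g' (MF.scaleH q τ) = jac g τ := by simpa [jac] using h2
  have hq3 := natCast_eq_neg_one hq
  have hq0 : (q : ℤ) ≠ 0 := by exact_mod_cast NeZero.ne q
  have e00 : g' 0 0 = g 0 0 := mul_right_cancel₀ hq0 (h.e00.trans (mul_comm _ _))
  have e10 : g' 1 0 * q = g 1 0 := h.e10
  have e01 : g' 0 1 = q * g 0 1 := by simpa using h.e01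
  have e11 : g' 1 1 = g 1 1 := by simpa using h.e11
  have ht : IsTwist g g' := by
    refine ⟨by rw [e00], by rw [e01]; push_cast; rw [hq3, neg_one_mul], ?_, by rw [e11]⟩
    rw [← e10]; push_cast; rw [hq3]; ring
  rw [etaPair, h1, eta8_smul, eta8_smul, hden, etaPair]
  linear_combination (jac g τ ^ 8 * eta8 τ * eta8 (MF.scaleH q τ)) * eExp_twist ht

/-- `η⁸(τ) η⁸(q τ) / (η⁸(r τ) η⁸(q r τ))`. -/
def etaQuot (q r : ℕ) (τ : ℍ) : ℂ := etaPair q τ / etaPair q (MF.scaleH r τ)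

theorem etaQuot_ne_zero (q r : ℕ) (τ : ℍ) : etaQuot q r τ ≠ 0 :=
  div_ne_zero (etaPair_ne_zero _ _) (etaPair_ne_zero _ _)

theorem scaleH_scaleH (q r : ℕ) [NeZero q] [NeZero r] (τ : ℍ) :
    MF.scaleH q (MF.scaleH r τ) = MF.scaleH (q * r) τ := by
  have : NeZero (q * r) := ⟨mul_ne_zero (NeZero.ne q) (NeZero.ne r)⟩
  ext
  rw [MF.coe_scaleH, MF.coe_scaleH, MF.coe_scaleH]
  push_cast
  ring

theorem gammaInv_etaQuot {N q r : ℕ} [NeZero q] [NeZero r] (hq : q % 3 = 2) (hN : q * r ∣ N) :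
    GammaInv N (etaQuot q r) := fun g hg τ => by
  have hdvd : ∀ {d : ℕ}, d ∣ N → (d : ℤ) ∣ g 1 0 := fun hd =>
    (Int.natCast_dvd_natCast.mpr hd).trans
      ((ZMod.intCast_zmod_eq_zero_iff_dvd _ _).mp (Gamma0_mem.mp hg))
  obtain ⟨g', h⟩ := isTri_Gamma0 (d := r) ((dvd_mul_left r q).trans hN) hg
  obtain ⟨h1, h2⟩ := h.scaleH_smul τ
  rw [affH_diag] at h1 h2
  have hgq : g ∈ Gamma0 q := by
    rw [Gamma0_mem, ZMod.intCast_zmod_eq_zero_iff_dvd]
    exact hdvd ((dvd_mul_right q r).trans hN)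
  have hg'q : g' ∈ Gamma0 q := by
    rw [Gamma0_mem, ZMod.intCast_zmod_eq_zero_iff_dvd]
    refine Int.dvd_of_mul_dvd_mul_right (a := (r : ℤ)) (by exact_mod_cast NeZero.ne r) ?_
    have e10 : g' 1 0 * r = g 1 0 := h.e10
    rw [e10]
    exact_mod_cast hdvd hN
  have hden : jac g' (MF.scaleH r τ) = jac g τ := by simpa [jac] using h2
  rw [etaQuot, h1, etaPair_smul hq hgq, etaPair_smul hq hg'q, hden, etaQuot,
    mul_div_mul_left _ _ (pow_ne_zero _ (jac_ne_zero g τ))]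

theorem etaQuot_cube (q r : ℕ) [NeZero q] [NeZero r] (τ : ℍ) :
    etaQuot q r τ ^ 3 =
      (ModularForm.discriminant τ * ModularForm.discriminant (MF.scaleH q τ)) /
        (ModularForm.discriminant (MF.scaleH r τ) *
          ModularForm.discriminant (MF.scaleH (q * r) τ)) := by
  rw [etaQuot, div_pow, etaPair, etaPair, mul_pow, mul_pow, eta8_cube, eta8_cube, eta8_cube,
    eta8_cube, scaleH_scaleH]

end Fermat.Agent.EtaEight
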