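import Fermat.Agent.MF.EtaEight.Basic
import Fermat.Agent.Igusa.ConjSeries
import Fermat.Agent.Igusa.ModularEquations
import Fermat.Agent.BAD.Gauss

/-!
# Expansions of the quotient `η⁸(τ) η⁸(q τ) / (η⁸(r τ) η⁸(q r τ))` and of its conjugates

The expansion at `∞` has integer coefficients and leading coefficient `1`; all conjugates have
expansions over the algebraic integers, so the quotient is `Conjugable` of level `N` for `q r ∣ N`.
-/

set_option autoImplicit false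

noncomputable section

open UpperHalfPlane Function HahnSeries ModularCurve CongruenceSubgroup
open Fermat.Agent.Igusa
open scoped MatrixGroups Real Manifold

namespace Fermat.Agent.EtaEight

local notation "𝕢" => Periodic.qParam

section Series

variable (R : Type*) [CommRing R]

/-- The expansion of `∏ (1 - q^n)^8`. -/
def p8Series : LaurentSeries R :=
  ofPowerSeries ℤ R ((etaProd ^ 8).map (Int.castRingHom R))

/-- The expansion of `∏ (1 - q^n)^(-8)`. -/
def p8InvSeries : LaurentSeries R :=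
  ofPowerSeries ℤ R ((etaProd ^ 16).map (Int.castRingHom R)) * deltaInvSeries R * single 1 1

theorem p8Series_mul_inv : p8Series R * p8InvSeries R = 1 := by
  have h : (etaProd ^ 8).map (Int.castRingHom R) * (etaProd ^ 16).map (Int.castRingHom R) *
      dedekindEtaUnitInv.map (Int.castRingHom R) = 1 := by
    rw [← map_mul, ← map_mul, ← _root_.pow_add,
      show (etaProd ^ (8 + 16)) = dedekindEtaUnit from rfl, dedekindEtaUnit_mul_inv, map_one]
  have h' : (single (-1 : ℤ) (1 : R)) * single 1 1 = 1 := by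
    rw [single_mul_single, neg_add_cancel, one_mul, HahnSeries.single_zero_one]
  calc p8Series R * p8InvSeries R
      = ofPowerSeries ℤ R ((etaProd ^ 8).map (Int.castRingHom R) *
          (etaProd ^ 16).map (Int.castRingHom R) * dedekindEtaUnitInv.map (Int.castRingHom R)) *
          (single (-1 : ℤ) (1 : R) * single 1 1) := by
        rw [p8Series, p8InvSeries, deltaInvSeries, map_mul, map_mul]; ring
    _ = 1 := by rw [h, h', map_one, one_mul]

/-- The exponent of the leading power of `q`. -/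
def leadExp (q r : ℕ) : ℤ := (((q + 1) / 3 : ℕ) : ℤ) * (1 - (r : ℤ))

variable (q r : ℕ) [NeZero q] [NeZero r]

instance : NeZero (q * r) := ⟨mul_ne_zero (NeZero.ne q) (NeZero.ne r)⟩

/-- The expansion of the quotient. -/
def etaQuotSer : LaurentSeries R :=
  single (leadExp q r) 1 * (p8Series R * qExpand R q (p8Series R) *
    (qExpand R r (p8InvSeries R) * qExpand R (q * r) (p8InvSeries R)))

/-- The expansion of the inverse of the quotient. -/
def etaQuotInvSer : LaurentSeries R :=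
  single (-leadExp q r) 1 * (p8InvSeries R * qExpand R q (p8InvSeries R) *
    (qExpand R r (p8Series R) * qExpand R (q * r) (p8Series R)))

theorem etaQuotSer_mul_inv : etaQuotSer R q r * etaQuotInvSer R q r = 1 := by
  have h : ∀ (n : ℕ) [NeZero n], qExpand R n (p8Series R) * qExpand R n (p8InvSeries R) = 1 :=
    fun n _ => by rw [← map_mul, p8Series_mul_inv, map_one]
  calc etaQuotSer R q r * etaQuotInvSer R q r
      = (single (leadExp q r) (1 : R) * single (-leadExp q r) 1) *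
          ((p8Series R * p8InvSeries R) * (qExpand R q (p8Series R) * qExpand R q (p8InvSeries R)) *
            ((qExpand R r (p8Series R) * qExpand R r (p8InvSeries R)) *
              (qExpand R (q * r) (p8Series R) * qExpand R (q * r) (p8InvSeries R)))) := by
        rw [etaQuotSer, etaQuotInvSer]; ring
    _ = 1 := by
        rw [p8Series_mul_inv, h, h, h, single_mul_single]
        simp

theorem etaQuotSer_ne_zero [Nontrivial R] : etaQuotSer R q r ≠ 0 :=
  left_ne_zero_of_mul_eq_one (etaQuotSer_mul_inv R q r)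

theorem etaQuotInvSer_ne_zero [Nontrivial R] : etaQuotInvSer R q r ≠ 0 :=
  right_ne_zero_of_mul_eq_one (etaQuotSer_mul_inv R q r)

variable {R} {S : Type*} [CommRing S] (φ : R →+* S)

theorem coeffMap_psSeries (p : PowerSeries ℤ) :
    coeffMap φ (ofPowerSeries ℤ R (p.map (Int.castRingHom R))) =
      ofPowerSeries ℤ S (p.map (Int.castRingHom S)) := by
  rw [coeffMap_ofPowerSeries, ← RingHom.comp_apply (PowerSeries.map φ), ← PowerSeries.map_comp,
    RingHom.ext_int (φ.comp (Int.castRingHom R)) (Int.castRingHom S)]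

theorem coeffMap_p8Series : coeffMap φ (p8Series R) = p8Series S := coeffMap_psSeries φ _

theorem coeffMap_p8InvSeries : coeffMap φ (p8InvSeries R) = p8InvSeries S := by
  rw [p8InvSeries, map_mul, map_mul, coeffMap_psSeries, coeffMap_deltaInvSeries, coeffMap_single,
    map_one]
  rfl

theorem coeffMap_etaQuotSer : coeffMap φ (etaQuotSer R q r) = etaQuotSer S q r := by
  simp only [etaQuotSer, map_mul, coeffMap_single, map_one, coeffMap_qExpand, coeffMap_p8Series,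
    coeffMap_p8InvSeries]

theorem coeffMap_etaQuotInvSer : coeffMap φ (etaQuotInvSer R q r) = etaQuotInvSer S q r := by
  simp only [etaQuotInvSer, map_mul, coeffMap_single, map_one, coeffMap_qExpand, coeffMap_p8Series,
    coeffMap_p8InvSeries]

variable (R)

theorem castSeries_etaQuotSer :
    BAD.Gauss.castSeries R (etaQuotSer ℤ q r) = etaQuotSer R q r :=
  coeffMap_etaQuotSer q r _

theorem castSeries_etaQuotInvSer :
    BAD.Gauss.castSeries R (etaQuotInvSer ℤ q r) = etaQuotInvSer R q r :=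
  coeffMap_etaQuotInvSer q r _

end Series

/-! ### Expansions of functions -/

/-- `∏ (1 - q^n)^(-8)` as a function. -/
def p8InvFun (τ : ℍ) : ℂ :=
  MF.etaProdUHP τ ^ 16 * (ModularForm.discriminant τ)⁻¹ * 𝕢 1 (τ : ℂ)

theorem etaProdUHP_ne_zero (τ : ℍ) : MF.etaProdUHP τ ≠ 0 :=
  etaProdFun_ne_zero (by simpa using MF.norm_q_lt_one τ)

theorem p8InvFun_eq (τ : ℍ) : p8InvFun τ = (MF.etaProdUHP τ ^ 8)⁻¹ := by
  rw [p8InvFun, MF.discriminant_eq_q_mul]
  simp only [MF.qUHP, Pi.mul_apply, Pi.pow_apply]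
  have h := etaProdUHP_ne_zero τ
  have h' := Periodic.qParam_ne_zero (h := (1 : ℝ)) (τ : ℂ)
  field_simp

theorem hasExp_zpow (h : ℕ) (m : ℤ) :
    HasExp h (fun τ : ℍ => 𝕢 (h : ℝ) (τ : ℂ) ^ m) (single m 1) := by
  refine ⟨(-m).toNat, PowerSeries.X ^ (m + (-m).toNat).toNat, ?_, fun τ => ?_⟩
  · rw [ofPowerSeries_X_pow, single_mul_single, one_mul, Int.toNat_of_nonneg (by omega), add_comm]
  · convert! hasSum_ite_eq ((m + (-m).toNat).toNat)
      (𝕢 (h : ℝ) (τ : ℂ) ^ m * 𝕢 (h : ℝ) (τ : ℂ) ^ (-m).toNat) using 1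
    funext n
    rw [PowerSeries.coeff_X_pow]
    split_ifs with hn
    · subst hn
      rw [one_mul, ← zpow_natCast, ← zpow_natCast, ← zpow_add₀ (Periodic.qParam_ne_zero _),
        Int.toNat_of_nonneg (by omega)]
    · rw [zero_mul]

theorem hasExp_etaProd_pow (n : ℕ) : HasExp 1 (fun τ => MF.etaProdUHP τ ^ n)
    (ofPowerSeries ℤ ℂ ((etaProd ^ n).map (Int.castRingHom ℂ))) := by
  refine ⟨0, (etaProd ^ n).map (Int.castRingHom ℂ), by simp, fun τ => ?_⟩
  have h := MF.hasSum_of_mem_qFunctions (pow_mem MF.mem_qFunctions_etaProdUHP n) τ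
  rw [MF.qExpansion_pow_of_mem_qFunctions MF.mem_qFunctions_etaProdUHP, MF.qExpansion_etaProdUHP,
    ← map_pow] at h
  simpa using h

theorem hasExp_p8 : HasExp 1 (fun τ => MF.etaProdUHP τ ^ 8) (p8Series ℂ) := hasExp_etaProd_pow 8

theorem hasExp_p8Inv : HasExp 1 p8InvFun (p8InvSeries ℂ) := by
  have h := ((hasExp_etaProd_pow 16).mul hasExp_discriminant_inv).mul (hasExp_zpow 1 1)
  simp only [zpow_one, Nat.cast_one] at h
  exact h

theorem hasExp_p8' : HasExp 1 (fun τ => MF.etaProdUHP τ ^ 8) (coeffMap valC (p8Series R0)) := by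
  rw [coeffMap_p8Series]; exact hasExp_p8

theorem hasExp_p8Inv' : HasExp 1 p8InvFun (coeffMap valC (p8InvSeries R0)) := by
  rw [coeffMap_p8InvSeries]; exact hasExp_p8Inv

theorem hasExp_scale {f : ℍ → ℂ} {s : LaurentSeries ℂ} (hs : HasExp 1 f s) (d : ℕ) [NeZero d] :
    HasExp 1 (fun τ => f (MF.scaleH d τ)) (qExpand ℂ d s) := by
  have h := hs.comp (h' := 1) (MF.scaleH d) 1 d fun τ => by
    rw [Units.val_one, one_mul, MF.coe_scaleH, Periodic.qParam, Periodic.qParam,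
      ← Complex.exp_nat_mul]
    congr 1
    push_cast
    ring
  rwa [qScale_one, RingHom.id_apply] at h

variable {q r : ℕ} [NeZero q] [NeZero r]

omit [NeZero q] in
theorem three_mul_leadCoeff (hq : q % 3 = 2) :
    (3 : ℂ) * (((q + 1) / 3 : ℕ) : ℂ) = q + 1 := by
  have h : 3 * ((q + 1) / 3) = q + 1 := Nat.mul_div_cancel' (by omega)
  exact_mod_cast h

theorem hasExp_etaQuot (hq : q % 3 = 2) :
    HasExp 1 (etaQuot q r) (etaQuotSer ℂ q r) := by
  have h := (hasExp_zpow 1 (leadExp q r)).mul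
    ((hasExp_p8.mul (hasExp_scale hasExp_p8 q)).mul
      ((hasExp_scale hasExp_p8Inv r).mul (hasExp_scale hasExp_p8Inv (q * r))))
  refine (congrArg (HasExp 1 · _) (funext fun τ => ?_)).mpr h
  simp only [Pi.mul_apply, Nat.cast_one]
  rw [etaQuot, etaPair, etaPair, scaleH_scaleH, eta8_eq, eta8_eq, eta8_eq, eta8_eq, p8InvFun_eq,
    p8InvFun_eq]
  have key : 𝕢 1 (τ : ℂ) ^ leadExp q r = 𝕢 3 (τ : ℂ) * 𝕢 3 (MF.scaleH q τ : ℂ) /
      (𝕢 3 (MF.scaleH r τ : ℂ) * 𝕢 3 (MF.scaleH (q * r) τ : ℂ)) := by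
    simp only [Periodic.qParam, ← Complex.exp_int_mul, ← Complex.exp_add, ← Complex.exp_sub,
      leadExp, MF.coe_scaleH]
    congr 1
    have hk := three_mul_leadCoeff hq
    generalize (q + 1) / 3 = k at hk
    push_cast
    linear_combination (2 * π * Complex.I * (τ : ℂ) * (1 - (r : ℂ)) / 3) * hk
  rw [key]
  have h1 := Periodic.qParam_ne_zero (h := (3 : ℝ)) (MF.scaleH r τ : ℂ)
  have h2 := Periodic.qParam_ne_zero (h := (3 : ℝ)) (MF.scaleH (q * r) τ : ℂ)
  have h3 := etaProdUHP_ne_zero (MF.scaleH r τ)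
  have h4 := etaProdUHP_ne_zero (MF.scaleH (q * r) τ)
  field_simp

/-! ### Conjugates -/

theorem eta8_scaleH_smul {γ g : SL(2, ℤ)} {d a e : ℕ} {b : ℤ} [NeZero d]
    (h : IsTri γ d g a e b) (τ : ℍ) :
    eta8 (MF.scaleH d (γ • τ)) =
      omega3 ^ eExp g * (jac γ τ / e) ^ 4 * eta8 (affH a e b τ) := by
  obtain ⟨h1, h2⟩ := h.scaleH_smul τ
  rw [h1, eta8_smul]
  simp only [jac] at h2 ⊢
  rw [h2]

variable {N : ℕ} [NeZero N]

/-- The exponent of the root of unity in `exp (2πi z / 3)` at `z = (a τ + b) / e`. -/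
def triShift (t : TriData N) : ℤ := t.b * (N / t.e : ℕ)

theorem qParam_three_affH (t : TriData N) (τ : ℍ) :
    𝕢 3 (affH t.a t.e t.b τ : ℂ) =
      Complex.exp (2 * π * Complex.I / (3 * N : ℕ)) ^ triShift t *
        𝕢 ((3 * N : ℕ) : ℝ) (τ : ℂ) ^ (t.r : ℤ) := by
  simp only [Periodic.qParam, triShift, ← Complex.exp_int_mul, ← Complex.exp_add,
    coe_affH t.b τ t.a_pos t.e_pos, TriData.r]
  congr 1
  obtain ⟨k, hk⟩ := t.e_dvd
  rw [Nat.div_eq_of_eq_mul_right t.e_pos hk]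
  have hkC : (N : ℂ) = (t.e : ℂ) * k := by exact_mod_cast hk
  have he : (t.e : ℂ) ≠ 0 := Nat.cast_ne_zero.mpr t.e_pos.ne'
  have hk0 : (k : ℂ) ≠ 0 := fun h => NeZero.ne N (by simpa [Nat.cast_eq_zero.mp h] using hk)
  push_cast
  rw [hkC]
  field_simp
  ring

theorem tri_r_mul {d : ℕ} [NeZero d] (c : Coset N) (hd : d ∣ N) :
    (tri c hd).r * d = (tri c hd).a ^ 2 * N := by
  obtain ⟨k, hk⟩ := (tri c hd).e_dvd
  rw [TriData.r, Nat.div_eq_of_eq_mul_right (tri c hd).e_pos hk]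
  conv_lhs => arg 2; rw [← tri_mul c hd]
  conv_rhs => arg 2; rw [hk]
  ring

theorem conj_algebra {K : Type*} [Field K] (o1 oq or oqr z1 zq zr zqr Q1 Qq Qr Qqr j eq er : K)
    {P1 Pq Pr Pqr : K} (hj : j ≠ 0) (heq : eq ≠ 0) :
    o1 * (j / 1) ^ 4 * (z1 * Q1 * P1) * (oq * (j / eq) ^ 4 * (zq * Qq * Pq)) /
        (or * (j / er) ^ 4 * (zr * Qr * Pr) * (oqr * (j / (eq * er)) ^ 4 * (zqr * Qqr * Pqr))) =
      o1 * oq / or / oqr * (z1 * zq / zr / zqr) * er ^ 8 * (Q1 * Qq / (Qr * Qqr)) *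
        (P1 * Pq * (Pr⁻¹ * Pqr⁻¹)) := by
  have hJ : j ^ 4 ≠ 0 := pow_ne_zero _ hj
  have hE : eq ^ 4 ≠ 0 := pow_ne_zero _ heq
  simp only [div_eq_mul_inv, inv_one, mul_one, mul_pow, mul_inv, inv_pow, inv_inv]
  rw [show er ^ 8 = er ^ 4 * er ^ 4 by ring]
  generalize j ^ 4 = J at hJ ⊢
  generalize eq ^ 4 = E at hE ⊢
  generalize er ^ 4 = R
  calc _ = (J * J⁻¹) * (J * J⁻¹) * (E * E⁻¹) * (o1 * oq * or⁻¹ * oqr⁻¹ *
        (z1 * zq * zr⁻¹ * zqr⁻¹) * (R * R) * (Q1 * Qq * (Qr⁻¹ * Qqr⁻¹)) *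
        (P1 * Pq * (Pr⁻¹ * Pqr⁻¹))) := by ring
    _ = _ := by rw [mul_inv_cancel₀ hJ, mul_inv_cancel₀ hE, one_mul, one_mul, one_mul]

variable (hq : q.Prime) (hq3 : q % 3 = 2) (hqr : Nat.Coprime q r) (hN : q * r ∣ N) (c : Coset N)

include hq hq3 hqr hN

theorem tri_conj :
    ∃ (m : ℤ), (tri c (one_dvd N)).e = 1 ∧
      (tri c hN).e = (tri c ((dvd_mul_right q r).trans hN)).e *
        (tri c ((dvd_mul_left r q).trans hN)).e ∧
      ((tri c (one_dvd N)).r : ℤ) + (tri c ((dvd_mul_right q r).trans hN)).r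
        - (tri c ((dvd_mul_left r q).trans hN)).r - (tri c hN).r = 3 * m := by
  set t1 := tri c (one_dvd N) with ht1
  set tq := tri c ((dvd_mul_right q r).trans hN) with htq
  set tr := tri c ((dvd_mul_left r q).trans hN) with htr
  set tqr := tri c hN with htqr
  have m1 : t1.a * t1.e = 1 := tri_mul c _
  have mq : tq.a * tq.e = q := tri_mul c _
  have mr : tr.a * tr.e = r := tri_mul c _
  have mqr : tqr.a * tqr.e = q * r := tri_mul c hN
  have hmul : tqr.a = tq.a * tr.a := by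
    rw [htqr, htq, htr, tri_a, tri_a, tri_a]
    simp only [Int.gcd, Int.natAbs_natCast]
    rw [Nat.gcd_comm _ (Int.natAbs _), Nat.Coprime.gcd_mul _ hqr, Nat.gcd_comm _ q,
      Nat.gcd_comm _ r]
  have haq : tq.a = 1 ∨ tq.a = q := hq.eq_one_or_self_of_dvd _ (mq ▸ dvd_mul_right _ _)
  have hthree : (3 : ℤ) ∣ q + (tq.a : ℤ) ^ 2 := by
    have hq' : (3 : ℤ) ∣ (q : ℤ) + 1 := by omega
    rcases haq with h | h <;> rw [h]
    · simpa using hq'
    · rw [show (q : ℤ) + (q : ℤ) ^ 2 = q * (q + 1) by ring]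
      exact hq'.mul_left _
  obtain ⟨m, hm⟩ := hthree
  obtain ⟨k, hk⟩ := hN
  refine ⟨m * k * (r - (tr.a : ℤ) ^ 2), Nat.eq_one_of_mul_eq_one_left m1, ?_, ?_⟩
  · refine Nat.eq_of_mul_eq_mul_left tqr.a_pos ?_
    rw [mqr, hmul]
    conv_lhs => rw [← mq, ← mr]
    ring
  have r1 : (t1.r : ℤ) * (1 : ℕ) = (t1.a : ℤ) ^ 2 * N := by exact_mod_cast tri_r_mul c _
  have rq : (tq.r : ℤ) * q = (tq.a : ℤ) ^ 2 * N := by exact_mod_cast tri_r_mul c _
  have rr : (tr.r : ℤ) * r = (tr.a : ℤ) ^ 2 * N := by exact_mod_cast tri_r_mul c _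
  have rqr : (tqr.r : ℤ) * (q * r) = ((tq.a : ℤ) * tr.a) ^ 2 * N := by
    exact_mod_cast hmul ▸ tri_r_mul c ⟨k, hk⟩
  have a1 : (t1.a : ℤ) = 1 := by exact_mod_cast Nat.eq_one_of_mul_eq_one_right m1
  have hkZ : (N : ℤ) = q * r * k := by exact_mod_cast hk
  refine mul_right_cancel₀ (b := (q : ℤ) * r) (by
    exact_mod_cast mul_ne_zero (NeZero.ne q) (NeZero.ne r)) ?_
  rw [a1] at r1
  push_cast at r1
  linear_combination ((q : ℤ) * r) * r1 + (r : ℤ) * rq - (q : ℤ) * rr - rqr +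
    (((q : ℤ) + (tq.a : ℤ) ^ 2) * (r - (tr.a : ℤ) ^ 2)) * hkZ +
    ((r : ℤ) - (tr.a : ℤ) ^ 2) * q * r * k * hm

theorem conj_mem_expRing : conjFun (etaQuot q r) c ∈ expRing N := by
  refine ⟨mdifferentiable_comp_smul ?_ _, ?_⟩
  · have h1 : MDiff (etaPair q) :=
      mdifferentiable_eta8.mul (mdifferentiable_comp_scaleH mdifferentiable_eta8 q)
    have h2 : MDiff (fun τ => etaPair q (MF.scaleH r τ)) := mdifferentiable_comp_scaleH h1 r
    exact UpperHalfPlane.mdifferentiable_iff.mpr <|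
      (UpperHalfPlane.mdifferentiable_iff.mp h1).div (UpperHalfPlane.mdifferentiable_iff.mp h2)
        fun _ _ => etaPair_ne_zero _ _
  obtain ⟨g1, h1⟩ := tri_spec c (one_dvd N)
  obtain ⟨gq, hgq⟩ := tri_spec c ((dvd_mul_right q r).trans hN)
  obtain ⟨gr, hgr⟩ := tri_spec c ((dvd_mul_left r q).trans hN)
  obtain ⟨gqr, hgqr⟩ := tri_spec c hN
  obtain ⟨m, he1, he, hm⟩ := tri_conj hq hq3 hqr hN c
  set t1 := tri c (one_dvd N)
  set tq := tri c ((dvd_mul_right q r).trans hN)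
  set tr := tri c ((dvd_mul_left r q).trans hN)
  set tqr := tri c hN
  have : NeZero (3 * N) := ⟨mul_ne_zero three_ne_zero (NeZero.ne N)⟩
  set n := eExp g1 + eExp gq - eExp gr - eExp gqr
  set B := triShift t1 + triShift tq - triShift tr - triShift tqr
  set u : R0ˣ := zetaUnit 3 ^ n * zetaUnit (3 * N) ^ B
  refine ⟨single (0 : ℤ) ((u : R0) * (tr.e : R0) ^ 8) * single m 1 *
    (t1.twist (zetaUnit N) (p8Series R0) * tq.twist (zetaUnit N) (p8Series R0) *
      (tr.twist (zetaUnit N) (p8InvSeries R0) * tqr.twist (zetaUnit N) (p8InvSeries R0))), ?_⟩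
  simp only [map_mul, coeffMap_single, map_one]
  refine (congrArg (HasExp N · _) (funext fun τ => ?_)).mpr
    (((hasExp_const _).mul (hasExp_zpow N m)).mul
      (((hasExp_affH t1 hasExp_p8').mul (hasExp_affH tq hasExp_p8')).mul
        ((hasExp_affH tr hasExp_p8Inv').mul (hasExp_affH tqr hasExp_p8Inv'))))
  have hu : valC (u : R0) = omega3 ^ n * Complex.exp (2 * π * Complex.I / (3 * N : ℕ)) ^ B := by
    have h3 : omega3 = valC (zetaUnit 3 : R0) := by rw [coe_zetaUnit, omega3]; norm_num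
    rw [h3, ← coe_zetaUnit (N := 3 * N)]
    simp only [u, Units.val_mul, map_mul]
    congr 1 <;> exact (map_zpow (Units.map valC.toMonoidHom) _ _ |> congrArg Units.val).trans
      (Units.val_zpow_eq_zpow_val _ _)
  simp only [conjFun, Pi.mul_apply, map_pow, map_natCast, p8InvFun_eq, hu]
  rw [etaQuot, etaPair, etaPair, scaleH_scaleH, eta8_scaleH_smul hgq, eta8_scaleH_smul hgr,
    eta8_scaleH_smul hgqr]
  have hone := eta8_scaleH_smul h1 τ
  rw [MF.scaleH_one] at hone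
  rw [hone, eta8_eq, eta8_eq, eta8_eq, eta8_eq, qParam_three_affH, qParam_three_affH,
    qParam_three_affH, qParam_three_affH, he, he1]
  have hQ : 𝕢 (N : ℝ) (τ : ℂ) ^ m = 𝕢 ((3 * N : ℕ) : ℝ) (τ : ℂ) ^ (t1.r : ℤ) *
      𝕢 ((3 * N : ℕ) : ℝ) (τ : ℂ) ^ (tq.r : ℤ) /
        (𝕢 ((3 * N : ℕ) : ℝ) (τ : ℂ) ^ (tr.r : ℤ) *
          𝕢 ((3 * N : ℕ) : ℝ) (τ : ℂ) ^ (tqr.r : ℤ)) := by
    have hm' : ((t1.r : ℤ) : ℂ) + (tq.r : ℤ) - (tr.r : ℤ) - (tqr.r : ℤ) = 3 * (m : ℂ) := by
      exact_mod_cast congrArg (fun k : ℤ => (k : ℂ)) hm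
    simp only [Periodic.qParam, ← Complex.exp_int_mul, ← Complex.exp_add, ← Complex.exp_sub]
    congr 1
    push_cast at hm' ⊢
    have hN0 : (N : ℂ) ≠ 0 := Nat.cast_ne_zero.mpr (NeZero.ne N)
    field_simp
    linear_combination -(τ : ℂ) * hm'
  rw [hQ]
  simp only [n, B, zpow_sub₀ omega3_ne_zero, zpow_add₀ omega3_ne_zero,
    zpow_sub₀ (Complex.exp_ne_zero _), zpow_add₀ (Complex.exp_ne_zero _)]
  push_cast
  exact conj_algebra _ _ _ _ _ _ _ _ _ _ _ _ _ _ _ (jac_ne_zero (rep c) τ)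
    (Nat.cast_ne_zero.mpr tq.e_pos.ne')

omit c in
theorem conjugable_etaQuot : Conjugable N (etaQuot q r) :=
  ⟨gammaInv_etaQuot hq3 hN, conj_mem_expRing hq hq3 hqr hN⟩

end Fermat.Agent.EtaEight
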